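/-
Program R / Descent (D4b-1, helper1): the function field of `Γ₀(N)` is generated over `ℂ(j)` by
`j_N = j(N·)`: the minimal polynomial of `j_N` over `ℂ[j]` has degree `ψ(N)`.
-/
import Fermat.Agent.ProgramR.Analytic.Gamma0Chart

set_option autoImplicit false

noncomputable section

namespace Fermat.Agent.ProgramR

open UpperHalfPlane Polynomial Module CongruenceSubgroup IntermediateField
open scoped Manifold MatrixGroups

attribute [local instance] FractionRing.liftAlgebra
attribute [local instance] Genus.cosetFintype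

variable (N : ℕ) [NeZero N]

/-- The minimal polynomial of `j_N` over `ℂ[j]` has at least `ψ(N)` distinct roots in `Hol`. -/
theorem WH0.le_natDegree_minpoly_jN :
    ModularCurve.dedekindPsi N ≤ (minpoly ℂ[X] (jNWH0 N)).natDegree := by
  classical
  set A := gamma0Chart N
  set h : WH0 (Gamma0 N) := jNWH0 N
  have hint : IsIntegral ℂ[X] h := Algebra.IsIntegral.isIntegral h
  set m := minpoly ℂ[X] h
  have hm : m.Monic := minpoly.monic hint
  set m' : Hol[X] := m.map A.φ
  have hm' : m'.Monic := hm.map _
  have hroot : ∀ x : SL(2, ℤ) ⧸ Gamma0 N, m'.IsRoot (A.σ x h) := by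
    intro x
    rw [Polynomial.IsRoot.def, Polynomial.eval_map]
    have h1 : A.φ = (A.σ x).comp (algebraMap ℂ[X] (WH0 (Gamma0 N))) :=
      RingHom.ext (fun p => (A.σ_φ x p).symm)
    rw [h1, ← Polynomial.hom_eval₂, ← Polynomial.aeval_def, minpoly.aeval, map_zero]
  have hinj : Function.Injective (fun x : SL(2, ℤ) ⧸ Gamma0 N => A.σ x h) := by
    intro x y hxy
    induction x using QuotientGroup.induction_on with
    | H g =>
      induction y using QuotientGroup.induction_on with
      | H g' =>
        rw [QuotientGroup.eq, ← slComp_inv_jN_eq_iff]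
        exact hxy
  have hsub : (Finset.univ.image (fun x : SL(2, ℤ) ⧸ Gamma0 N => A.σ x h)).val ⊆ m'.roots := by
    intro f hf
    rw [Finset.mem_val, Finset.mem_image] at hf
    obtain ⟨x, -, rfl⟩ := hf
    exact (Polynomial.mem_roots hm'.ne_zero).2 (hroot x)
  have h3 := Polynomial.card_le_degree_of_subset_roots hsub
  rw [Finset.card_image_of_injective _ hinj, Finset.card_univ, Genus.card_coset N,
    hm.natDegree_map] at h3
  exact h3

/-- The minimal polynomial of (the image of) `j_N` over `ℂ(j)` has degree `ψ(N)`. -/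
theorem WH0.natDegree_minpoly_jN :
    (minpoly RatC (algebraMap (WH0 (Gamma0 N)) (WH0.FunField (Gamma0 N)) (jNWH0 N))).natDegree =
      finrank RatC (WH0.FunField (Gamma0 N)) := by
  have hint : IsIntegral ℂ[X] (jNWH0 N) := Algebra.IsIntegral.isIntegral _
  apply le_antisymm (minpoly.natDegree_le _)
  rw [minpoly.isIntegrallyClosed_eq_field_fractions RatC (WH0.FunField (Gamma0 N)) hint,
    (minpoly.monic hint).natDegree_map, ← WH0.finrank_eq_finrank_funField, WH0.finrank_Gamma0]
  exact WH0.le_natDegree_minpoly_jN N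

/-- **`F_N = ℂ(j)(j_N)`.** -/
theorem WH0.adjoin_jN_eq_top :
    RatC⟮algebraMap (WH0 (Gamma0 N)) (WH0.FunField (Gamma0 N)) (jNWH0 N)⟯ = ⊤ :=
  (Field.primitive_element_iff_minpoly_natDegree_eq RatC _).2 (WH0.natDegree_minpoly_jN N)

end Fermat.Agent.ProgramR
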