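/-
Program R / Descent (D4b-2, helper1): the action of `Aut(ℂ)` on the function field
`F_N = Frac (WH0 Γ₀(N))`, characterised by acting coefficientwise on `q`-expansions.

* `toFunField_id_surjective`: the formal function field `ℂ · ℚ(j(q^d) : d ∣ N) ⊆ ℂ((q))` maps
  ONTO `F_N` (because `F_N = ℂ(j)(j_N)`).
* `autFF N τ : F_N ≃+* F_N` with `qExpFF N (autFF N τ h) = coeffMap τ (qExpFF N h)`.
-/
import Fermat.Agent.ProgramR.Descent.GenJN
import Fermat.Agent.ProgramR.BarField.ToFunField

set_option autoImplicit false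

noncomputable section

namespace Fermat.Agent.ProgramR.Descent

open UpperHalfPlane Polynomial Module CongruenceSubgroup IntermediateField ModularCurve
open Fermat.Agent.ProgramR.BarField Fermat.Agent.ProgramR.LevelOne
open scoped Manifold MatrixGroups

attribute [local instance] FractionRing.liftAlgebra
attribute [local instance] Genus.cosetFintype

variable (N : ℕ) [NeZero N]

/-- `j(1·) = j`. -/
lemma jdWH0_one : jdWH0 N 1 (one_dvd N) = WH0.j (Gamma0 N) := by
  apply Subtype.ext
  funext z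
  show jScaledFun 1 z = jInv z
  rw [jScaledFun, Function.comp_apply]
  congr 1
  apply UpperHalfPlane.ext
  rw [coe_scaleH]
  simp

/-- `j(N·) = j_N`. -/
lemma jdWH0_self : jdWH0 N N dvd_rfl = jNWH0 N := by
  apply Subtype.ext
  funext z
  show jScaledFun N z = (jN N : ℍ → ℂ) z
  rw [jN_apply, jScaledFun, Function.comp_apply]
  congr 1
  apply UpperHalfPlane.ext
  rw [coe_levelMat_smul, coe_scaleH]

/-- The embedding of the formal function field over `ℂ`. -/
abbrev toFF : ↥(laurentBaseChange ℂ (modularFunctionFieldFull N)) →+* WH0.FunField (Gamma0 N) :=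
  toFunField N (RingHom.id ℂ)

lemma algebraMap_poly_mem_fieldRange (p : ℂ[X]) :
    algebraMap (WH0 (Gamma0 N)) (WH0.FunField (Gamma0 N)) (algebraMap ℂ[X] (WH0 (Gamma0 N)) p) ∈
      (toFF N).fieldRange := by
  have hC : ∀ c : ℂ, algebraMap (WH0 (Gamma0 N)) (WH0.FunField (Gamma0 N))
      (algebraMap ℂ (WH0 (Gamma0 N)) c) ∈ (toFF N).fieldRange := by
    intro c
    rw [RingHom.mem_fieldRange]
    exact ⟨algebraMap ℂ _ c, toFunField_algebraMap N (RingHom.id ℂ) c⟩
  have hj : algebraMap (WH0 (Gamma0 N)) (WH0.FunField (Gamma0 N)) (WH0.j (Gamma0 N)) ∈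
      (toFF N).fieldRange := by
    rw [RingHom.mem_fieldRange]
    refine ⟨jdBar N 1 (one_dvd N), ?_⟩
    rw [toFunField_jdBar, jdWH0_one]
  induction p using Polynomial.induction_on' with
  | add p q hp hq =>
    rw [map_add, map_add]
    exact add_mem hp hq
  | monomial n a =>
    rw [WH0.algebraMap_poly, Polynomial.aeval_monomial, map_mul, map_pow]
    exact mul_mem (hC a) (pow_mem hj n)

lemma algebraMap_ratC_mem_fieldRange (r : RatC) :
    algebraMap RatC (WH0.FunField (Gamma0 N)) r ∈ (toFF N).fieldRange := by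
  obtain ⟨p, q, hq, rfl⟩ := IsFractionRing.div_surjective (A := ℂ[X]) r
  rw [map_div₀, ← IsScalarTower.algebraMap_apply ℂ[X] RatC (WH0.FunField (Gamma0 N)),
    ← IsScalarTower.algebraMap_apply ℂ[X] RatC (WH0.FunField (Gamma0 N)),
    IsScalarTower.algebraMap_apply ℂ[X] (WH0 (Gamma0 N)) (WH0.FunField (Gamma0 N)),
    IsScalarTower.algebraMap_apply ℂ[X] (WH0 (Gamma0 N)) (WH0.FunField (Gamma0 N)) q]
  exact div_mem (algebraMap_poly_mem_fieldRange N p) (algebraMap_poly_mem_fieldRange N q)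

/-- **Surjectivity**: every element of `F_N` comes from the formal function field. -/
theorem toFunField_id_surjective : Function.Surjective (toFF N) := by
  set E : IntermediateField RatC (WH0.FunField (Gamma0 N)) :=
    (toFF N).fieldRange.toIntermediateField (algebraMap_ratC_mem_fieldRange N) with hE
  have hjN : algebraMap (WH0 (Gamma0 N)) (WH0.FunField (Gamma0 N)) (jNWH0 N) ∈ E := by
    show _ ∈ (toFF N).fieldRange
    rw [RingHom.mem_fieldRange]
    refine ⟨jdBar N N dvd_rfl, ?_⟩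
    rw [toFunField_jdBar, jdWH0_self]
  have htop : (⊤ : IntermediateField RatC (WH0.FunField (Gamma0 N))) ≤ E := by
    rw [← WH0.adjoin_jN_eq_top N, adjoin_simple_le_iff]
    exact hjN
  intro y
  have hy : y ∈ E := htop (IntermediateField.mem_top)
  exact RingHom.mem_fieldRange.mp hy

/-- `toFF` as a ring isomorphism. -/
def toFFEquiv : ↥(laurentBaseChange ℂ (modularFunctionFieldFull N)) ≃+* WH0.FunField (Gamma0 N) :=
  RingEquiv.ofBijective (toFF N) ⟨toFunField_injective N _, toFunField_id_surjective N⟩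

@[simp] lemma toFFEquiv_apply (x : ↥(laurentBaseChange ℂ (modularFunctionFieldFull N))) :
    toFFEquiv N x = toFF N x := rfl

/-- **The action of a field automorphism of `ℂ` on the function field `F_N`.** -/
def autFF (τ : ℂ ≃+* ℂ) : WH0.FunField (Gamma0 N) ≃+* WH0.FunField (Gamma0 N) :=
  ((toFFEquiv N).symm.trans (arithmeticRingAut (modularFunctionFieldFull N) τ.toRatAlgEquiv)).trans
    (toFFEquiv N)

/-- `autFF` acts coefficientwise on `q`-expansions. -/
theorem qExpFF_autFF (τ : ℂ ≃+* ℂ) (h : WH0.FunField (Gamma0 N)) :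
    qExpFF N (autFF N τ h) = coeffMap (τ : ℂ →+* ℂ) (qExpFF N h) := by
  obtain ⟨x, rfl⟩ := (toFFEquiv N).surjective h
  have h1 : autFF N τ (toFFEquiv N x) =
      toFFEquiv N (arithmeticRingAut (modularFunctionFieldFull N) τ.toRatAlgEquiv x) := by
    rw [autFF, RingEquiv.trans_apply, RingEquiv.trans_apply, RingEquiv.symm_apply_apply]
  rw [h1, toFFEquiv_apply, toFFEquiv_apply, qExpFF_toFunField, qExpFF_toFunField,
    coe_arithmeticRingAut_apply]
  simp only [coeffMap_id]
  rfl

/-- characterisation of `autFF` through `q`-expansions. -/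
theorem autFF_eq_iff (τ : ℂ ≃+* ℂ) (h h' : WH0.FunField (Gamma0 N)) :
    autFF N τ h = h' ↔ coeffMap (τ : ℂ →+* ℂ) (qExpFF N h) = qExpFF N h' := by
  rw [← qExpFF_autFF]
  exact ⟨fun e => by rw [e], fun e => qExpFF_injective N e⟩

/-- `autFF` on an element coming from the formal function field. -/
theorem autFF_toFF (τ : ℂ ≃+* ℂ) (x : ↥(laurentBaseChange ℂ (modularFunctionFieldFull N))) :
    autFF N τ (toFF N x) =
      toFF N (arithmeticRingAut (modularFunctionFieldFull N) τ.toRatAlgEquiv x) := by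
  rw [← toFFEquiv_apply, autFF, RingEquiv.trans_apply, RingEquiv.trans_apply,
    RingEquiv.symm_apply_apply, toFFEquiv_apply]

/-- `autFF` acts through `τ` on the constants. -/
theorem autFF_algebraMap_const (τ : ℂ ≃+* ℂ) (c : ℂ) :
    autFF N τ (algebraMap (WH0 (Gamma0 N)) (WH0.FunField (Gamma0 N))
        (algebraMap ℂ (WH0 (Gamma0 N)) c)) =
      algebraMap (WH0 (Gamma0 N)) (WH0.FunField (Gamma0 N)) (algebraMap ℂ (WH0 (Gamma0 N)) (τ c)) := by
  have h1 := toFunField_algebraMap N (RingHom.id ℂ) c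
  have h2 := toFunField_algebraMap N (RingHom.id ℂ) (τ c)
  simp only [RingHom.id_apply] at h1 h2
  rw [← h1, ← h2]
  show autFF N τ (toFF N _) = toFF N _
  rw [autFF_toFF, arithmeticRingAut_algebraMap]
  rfl

/-- `autFF` fixes the functions `j(d·)`, `d ∣ N`. -/
theorem autFF_jd (τ : ℂ ≃+* ℂ) (d : ℕ) [NeZero d] (hd : d ∣ N) :
    autFF N τ (algebraMap (WH0 (Gamma0 N)) (WH0.FunField (Gamma0 N)) (jdWH0 N d hd)) =
      algebraMap (WH0 (Gamma0 N)) (WH0.FunField (Gamma0 N)) (jdWH0 N d hd) := by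
  rw [← toFunField_jdBar N (RingHom.id ℂ) d hd]
  show autFF N τ (toFF N _) = toFF N _
  rw [autFF_toFF]
  congr 1
  apply Subtype.ext
  rw [coe_arithmeticRingAut_apply]
  exact coeffMap_coeffEmb τ.toRatAlgEquiv _

/-- `autFF` fixes `j`. -/
theorem autFF_j (τ : ℂ ≃+* ℂ) :
    autFF N τ (algebraMap (WH0 (Gamma0 N)) (WH0.FunField (Gamma0 N)) (WH0.j (Gamma0 N))) =
      algebraMap (WH0 (Gamma0 N)) (WH0.FunField (Gamma0 N)) (WH0.j (Gamma0 N)) := by
  rw [← jdWH0_one]
  exact autFF_jd N τ 1 (one_dvd N)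

/-- `autFF` fixes `j_N`. -/
theorem autFF_jN (τ : ℂ ≃+* ℂ) :
    autFF N τ (algebraMap (WH0 (Gamma0 N)) (WH0.FunField (Gamma0 N)) (jNWH0 N)) =
      algebraMap (WH0 (Gamma0 N)) (WH0.FunField (Gamma0 N)) (jNWH0 N) := by
  rw [← jdWH0_self]
  exact autFF_jd N τ N dvd_rfl

end Fermat.Agent.ProgramR.Descent
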