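/-
Program R, S23 track, package D4-algebra (helper2).
In the setting of Theorem A (`Alg/ThmA.lean`): a ring automorphism `τ` of `F` which is semilinear
over an automorphism `τ₀` of the constant field `k` and fixes the coordinate `x` preserves the two
conditions `FinCond`, `InfCond` defining the space `W` of holomorphic differentials.
Route: trace-dual characterisations of `FinCond`/`InfCond` (helper3) + the trace commutes with the
pair of automorphisms `(σ, τ)` of `(RatFunc k, F)` + `B`, `Binf` are integral closures.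
-/
import Mathlib
import Fermat.Agent.ProgramR.Alg.ThmA

set_option autoImplicit false
set_option linter.unusedSectionVars false

noncomputable section

namespace Fermat.Agent.ProgramR.Descent

open Polynomial IsDedekindDomain Module Fermat.Agent.ProgramR.Alg Fermat.Agent.ProgramR.RR

/-! ### A general lemma on trace duals -/

section General

variable {A K L C : Type*} [CommRing A] [Field K] [Field L] [CommRing C]
  [Algebra A K] [Algebra K L] [Algebra A L] [IsScalarTower A K L]
  [Algebra C L] [Algebra A C] [IsScalarTower A C L]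

/-- The trace commutes with a compatible pair of automorphisms. -/
theorem trace_apply_of_compatible (σ : K ≃+* K) (τ : L ≃+* L)
    (he : ∀ r : K, τ (algebraMap K L r) = algebraMap K L (σ r)) (y : L) :
    Algebra.trace K L (τ y) = σ (Algebra.trace K L y) := by
  have he' : RingHom.comp (algebraMap K L) (σ : K →+* K) =
      RingHom.comp (τ : L →+* L) (algebraMap K L) := by
    ext r
    exact (he r).symm
  rw [Algebra.trace_eq_of_equiv_equiv σ τ he' y, RingEquiv.apply_symm_apply]

/-- A compatible pair of automorphisms `(σ, τ)` of `(K, L)` such that `σ` and `σ⁻¹` preserve `A`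
maps the trace dual of the integral closure `C` of `A` in `L` into itself. -/
theorem apply_mem_traceDual_one
    (hC : ∀ y : L, y ∈ Set.range (algebraMap C L) ↔ IsIntegral A y)
    (σ : K ≃+* K) (τ : L ≃+* L)
    (he : ∀ r : K, τ (algebraMap K L r) = algebraMap K L (σ r))
    (φ φ' : A →+* A) (hφ : ∀ a, σ (algebraMap A K a) = algebraMap A K (φ a))
    (hφ' : ∀ a, σ.symm (algebraMap A K a) = algebraMap A K (φ' a))
    {y : L} (hy : y ∈ Submodule.traceDual A K (1 : Submodule C L)) :
    τ y ∈ Submodule.traceDual A K (1 : Submodule C L) := by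
  rw [Submodule.mem_traceDual] at hy ⊢
  intro a ha
  rw [Submodule.mem_one] at ha
  obtain ⟨c, rfl⟩ := ha
  have h1 : IsIntegral A (algebraMap C L c) := (hC _).mp ⟨c, rfl⟩
  have hsymm : ∀ r : K, τ.symm (algebraMap K L r) = algebraMap K L (σ.symm r) := by
    intro r
    rw [RingEquiv.symm_apply_eq, he, RingEquiv.apply_symm_apply]
  have h2 : IsIntegral A (τ.symm (algebraMap C L c)) := by
    refine h1.map_of_comp_eq φ' (τ.symm : L →+* L) ?_
    ext a
    simp only [RingHom.coe_comp, Function.comp_apply, RingHom.coe_coe]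
    rw [IsScalarTower.algebraMap_apply A K L, IsScalarTower.algebraMap_apply A K L, hsymm, hφ']
  obtain ⟨c', hc'⟩ := (hC _).mpr h2
  obtain ⟨a₀, ha₀⟩ := hy (algebraMap C L c') (Submodule.mem_one.mpr ⟨c', rfl⟩)
  refine ⟨φ a₀, ?_⟩
  rw [← hφ, ha₀, Algebra.traceForm_apply, Algebra.traceForm_apply,
    ← trace_apply_of_compatible σ τ he, map_mul, hc', RingEquiv.apply_symm_apply]

end General

/-! ### The automorphism of `RatFunc k` induced by an automorphism of `k` -/

section RatFunc

variable {k : Type*} [Field k]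

/-- The automorphism of `k(X)` acting on coefficients. -/
def ratFuncMap (τ₀ : k ≃+* k) : RatFunc k ≃+* RatFunc k :=
  IsFractionRing.ringEquivOfRingEquiv (A := k[X]) (B := k[X]) (K := RatFunc k) (L := RatFunc k)
    (Polynomial.mapEquiv τ₀)

theorem ratFuncMap_algebraMap (τ₀ : k ≃+* k) (p : k[X]) :
    ratFuncMap τ₀ (algebraMap k[X] (RatFunc k) p) =
      algebraMap k[X] (RatFunc k) (p.map (τ₀ : k →+* k)) := by
  rw [ratFuncMap, IsFractionRing.ringEquivOfRingEquiv_algebraMap]
  rfl

theorem ratFuncMap_symm (τ₀ : k ≃+* k) : (ratFuncMap τ₀).symm = ratFuncMap τ₀.symm := by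
  apply RingEquiv.ext
  intro r
  rw [RingEquiv.symm_apply_eq]
  obtain ⟨p, q, hq, rfl⟩ := IsFractionRing.div_surjective (A := k[X]) r
  rw [map_div₀, map_div₀, ratFuncMap_algebraMap, ratFuncMap_algebraMap, ratFuncMap_algebraMap,
    ratFuncMap_algebraMap, Polynomial.map_map, Polynomial.map_map]
  have : (τ₀ : k →+* k).comp (τ₀.symm : k →+* k) = RingHom.id k := by
    ext c
    simp
  rw [this, Polynomial.map_id, Polynomial.map_id]

theorem ratFuncMap_X (τ₀ : k ≃+* k) : ratFuncMap τ₀ (RatFunc.X : RatFunc k) = RatFunc.X := by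
  rw [← RatFunc.algebraMap_X, ratFuncMap_algebraMap, Polynomial.map_X]

theorem intDegree_ratFuncMap (τ₀ : k ≃+* k) (r : RatFunc k) :
    (ratFuncMap τ₀ r).intDegree = r.intDegree := by
  obtain ⟨p, q, hq, rfl⟩ := IsFractionRing.div_surjective (A := k[X]) r
  have hq0 : q ≠ 0 := nonZeroDivisors.ne_zero hq
  rcases eq_or_ne p 0 with rfl | hp0
  · simp
  have hinj : Function.Injective (τ₀ : k →+* k) := τ₀.injective
  have hp' : p.map (τ₀ : k →+* k) ≠ 0 := (Polynomial.map_ne_zero_iff hinj).mpr hp0
  have hq' : q.map (τ₀ : k →+* k) ≠ 0 := (Polynomial.map_ne_zero_iff hinj).mpr hq0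
  have hA : ∀ s : k[X], s ≠ 0 → algebraMap k[X] (RatFunc k) s ≠ 0 := fun s hs =>
    (map_ne_zero_iff _ (IsFractionRing.injective k[X] (RatFunc k))).mpr hs
  rw [map_div₀, ratFuncMap_algebraMap, ratFuncMap_algebraMap, div_eq_mul_inv, div_eq_mul_inv,
    RatFunc.intDegree_mul (hA _ hp') (inv_ne_zero (hA _ hq')),
    RatFunc.intDegree_mul (hA _ hp0) (inv_ne_zero (hA _ hq0)), RatFunc.intDegree_inv,
    RatFunc.intDegree_inv, RatFunc.intDegree_polynomial, RatFunc.intDegree_polynomial,
    RatFunc.intDegree_polynomial, RatFunc.intDegree_polynomial,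
    Polynomial.natDegree_map_eq_of_injective hinj, Polynomial.natDegree_map_eq_of_injective hinj]

theorem ratFuncMap_mem_Ainf (τ₀ : k ≃+* k) {r : RatFunc k} (hr : r ∈ Ainf k) :
    ratFuncMap τ₀ r ∈ Ainf k := by
  rcases (mem_Ainf_iff.mp hr) with rfl | h
  · rw [map_zero]
    exact (Ainf k).zero_mem
  · exact mem_Ainf_iff.mpr (Or.inr (by rwa [intDegree_ratFuncMap]))

/-- The restriction of `ratFuncMap τ₀` to `Ainf k`. -/
def ainfMap (τ₀ : k ≃+* k) : Ainf k →+* Ainf k :=
  ((ratFuncMap τ₀ : RatFunc k →+* RatFunc k).comp (Ainf k).subtype).codRestrict (Ainf k)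
    (fun a => ratFuncMap_mem_Ainf τ₀ a.2)

theorem algebraMap_ainfMap (τ₀ : k ≃+* k) (a : Ainf k) :
    algebraMap (Ainf k) (RatFunc k) (ainfMap τ₀ a) =
      ratFuncMap τ₀ (algebraMap (Ainf k) (RatFunc k) a) := rfl

end RatFunc

/-! ### Semilinear automorphisms in the Theorem A setting -/

section ThmA

variable (k : Type*) [Field k] [IsAlgClosed k] [CharZero k]
  (F : Type*) [Field F] [Algebra (RatFunc k) F] [FiniteDimensional (RatFunc k) F]
  [Algebra k F] [IsScalarTower k (RatFunc k) F]
  (B : Type*) [CommRing B] [IsDedekindDomain B] [Algebra k[X] B] [Module.Finite k[X] B]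
  [IsTorsionFree k[X] B] [Algebra B F] [IsFractionRing B F] [Algebra k[X] F]
  [IsScalarTower k[X] (RatFunc k) F] [IsScalarTower k[X] B F]
  (Binf : Type*) [CommRing Binf] [IsDedekindDomain Binf] [Algebra (Ainf k) Binf]
  [Module.Finite (Ainf k) Binf] [IsTorsionFree (Ainf k) Binf] [Algebra Binf F]
  [IsFractionRing Binf F] [Algebra (Ainf k) F] [IsScalarTower (Ainf k) (RatFunc k) F]
  [IsScalarTower (Ainf k) Binf F]

variable {k F}

/-- A `τ₀`-semilinear automorphism of `F` fixing `x` is compatible with `ratFuncMap τ₀`. -/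
theorem apply_algebraMap_ratFunc (τ : F ≃+* F) (τ₀ : k ≃+* k)
    (hk : ∀ c : k, τ (algebraMap k F c) = algebraMap k F (τ₀ c))
    (hx : τ (xF k F) = xF k F) (r : RatFunc k) :
    τ (algebraMap (RatFunc k) F r) = algebraMap (RatFunc k) F (ratFuncMap τ₀ r) := by
  have key : ((τ : F →+* F).comp (algebraMap (RatFunc k) F)) =
      (algebraMap (RatFunc k) F).comp (ratFuncMap τ₀ : RatFunc k →+* RatFunc k) := by
    apply IsLocalization.ringHom_ext (nonZeroDivisors k[X])
    apply Polynomial.ringHom_ext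
    · intro c
      simp only [RingHom.coe_comp, Function.comp_apply, RingHom.coe_coe]
      rw [ratFuncMap_algebraMap, Polynomial.map_C, RatFunc.algebraMap_C, RatFunc.algebraMap_C]
      have h1 : ∀ c' : k, algebraMap (RatFunc k) F (RatFunc.C c') = algebraMap k F c' := by
        intro c'
        rw [IsScalarTower.algebraMap_apply k (RatFunc k) F]
        rfl
      rw [h1, h1, hk]
      rfl
    · simp only [RingHom.coe_comp, Function.comp_apply, RingHom.coe_coe]
      rw [ratFuncMap_algebraMap, Polynomial.map_X, RatFunc.algebraMap_X]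
      exact hx
  exact RingHom.congr_fun key r

variable (k F)

theorem symm_apply_algebraMap (τ : F ≃+* F) (τ₀ : k ≃+* k)
    (hk : ∀ c : k, τ (algebraMap k F c) = algebraMap k F (τ₀ c)) (c : k) :
    τ.symm (algebraMap k F c) = algebraMap k F (τ₀.symm c) := by
  rw [RingEquiv.symm_apply_eq, hk, RingEquiv.apply_symm_apply]

theorem symm_apply_xF (τ : F ≃+* F) (hx : τ (xF k F) = xF k F) : τ.symm (xF k F) = xF k F := by
  rw [RingEquiv.symm_apply_eq, hx]

theorem mem_range_algebraMap_iff_isIntegral (y : F) :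
    y ∈ Set.range (algebraMap B F) ↔ IsIntegral k[X] y := by
  have : IsIntegralClosure B k[X] F := IsIntegralClosure.of_isIntegrallyClosed B k[X] F
  exact (IsIntegralClosure.isIntegral_iff (A := B)).symm

theorem mem_range_algebraMap_inf_iff_isIntegral (y : F) :
    y ∈ Set.range (algebraMap Binf F) ↔ IsIntegral (Ainf k) y := by
  have : IsIntegralClosure Binf (Ainf k) F := IsIntegralClosure.of_isIntegrallyClosed Binf (Ainf k) F
  exact (IsIntegralClosure.isIntegral_iff (A := Binf)).symm

/-- One direction of the invariance of `FinCond`. -/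
theorem finCond_apply (τ : F ≃+* F) (τ₀ : k ≃+* k)
    (hk : ∀ c : k, τ (algebraMap k F c) = algebraMap k F (τ₀ c))
    (hx : τ (xF k F) = xF k F) {h : F} (hh : FinCond k F B h) : FinCond k F B (τ h) := by
  rcases eq_or_ne h 0 with rfl | h0
  · rwa [map_zero]
  have h0' : τ h ≠ 0 := (map_ne_zero_iff _ τ.injective).mpr h0
  rw [← mem_traceDual_iff_finCond k F B h0] at hh
  rw [← mem_traceDual_iff_finCond k F B h0']
  refine apply_mem_traceDual_one (mem_range_algebraMap_iff_isIntegral k F B)
    (ratFuncMap τ₀) τ (apply_algebraMap_ratFunc τ τ₀ hk hx)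
    (Polynomial.mapRingHom (τ₀ : k →+* k)) (Polynomial.mapRingHom (τ₀.symm : k →+* k))
    (fun p => ratFuncMap_algebraMap τ₀ p) (fun p => ?_) hh
  rw [ratFuncMap_symm]
  exact ratFuncMap_algebraMap τ₀.symm p

/-- One direction of the invariance of `InfCond`. -/
theorem infCond_apply (τ : F ≃+* F) (τ₀ : k ≃+* k)
    (hk : ∀ c : k, τ (algebraMap k F c) = algebraMap k F (τ₀ c))
    (hx : τ (xF k F) = xF k F) {h : F} (hh : InfCond k F Binf h) : InfCond k F Binf (τ h) := by
  rcases eq_or_ne h 0 with rfl | h0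
  · rwa [map_zero]
  have h0' : τ h ≠ 0 := (map_ne_zero_iff _ τ.injective).mpr h0
  rw [← smul_mem_traceDual_iff_infCond k F Binf h0] at hh
  rw [← smul_mem_traceDual_iff_infCond k F Binf h0']
  have hcompat := apply_algebraMap_ratFunc τ τ₀ hk hx
  have hX2 : ratFuncMap τ₀ ((RatFunc.X : RatFunc k) ^ 2) = RatFunc.X ^ 2 := by
    rw [map_pow, ratFuncMap_X]
  have hsm : ((RatFunc.X : RatFunc k) ^ 2) • τ h = τ (((RatFunc.X : RatFunc k) ^ 2) • h) := by
    rw [Algebra.smul_def, Algebra.smul_def, map_mul, hcompat, hX2]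
  rw [hsm]
  refine apply_mem_traceDual_one (mem_range_algebraMap_inf_iff_isIntegral k F Binf)
    (ratFuncMap τ₀) τ hcompat (ainfMap τ₀) (ainfMap τ₀.symm)
    (fun a => (algebraMap_ainfMap τ₀ a).symm) (fun a => ?_) hh
  rw [ratFuncMap_symm]
  exact (algebraMap_ainfMap τ₀.symm a).symm

/-- **D4-algebra, finite chart.** -/
theorem finCond_apply_iff (τ : F ≃+* F) (τ₀ : k ≃+* k)
    (hk : ∀ c : k, τ (algebraMap k F c) = algebraMap k F (τ₀ c))
    (hx : τ (xF k F) = xF k F) (h : F) : FinCond k F B (τ h) ↔ FinCond k F B h := by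
  constructor
  · intro hh
    have := finCond_apply k F B τ.symm τ₀.symm (symm_apply_algebraMap k F τ τ₀ hk)
      (symm_apply_xF k F τ hx) hh
    rwa [RingEquiv.symm_apply_apply] at this
  · exact finCond_apply k F B τ τ₀ hk hx

/-- **D4-algebra, chart at infinity.** -/
theorem infCond_apply_iff (τ : F ≃+* F) (τ₀ : k ≃+* k)
    (hk : ∀ c : k, τ (algebraMap k F c) = algebraMap k F (τ₀ c))
    (hx : τ (xF k F) = xF k F) (h : F) : InfCond k F Binf (τ h) ↔ InfCond k F Binf h := by
  constructor
  · intro hh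
    have := infCond_apply k F Binf τ.symm τ₀.symm (symm_apply_algebraMap k F τ τ₀ hk)
      (symm_apply_xF k F τ hx) hh
    rwa [RingEquiv.symm_apply_apply] at this
  · exact infCond_apply k F Binf τ τ₀ hk hx

end ThmA

end Fermat.Agent.ProgramR.Descent
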