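/-
Program R, S23 track, package D4b (helper2).
For a field automorphism `τ` of `ℂ`, the coefficientwise action of `τ` on `ℂ((q))` preserves the
image of the function field `F_N = Frac (WH0 Γ₀(N))` under the `q`-expansion `qExpF N`, and hence
induces a ring automorphism `tauF N τ` of `F_N` which is `τ`-semilinear and fixes `x = j`.
Input: `F_N = ℂ(j)(j_N)` (primitive element, hypothesis `hprim`).
-/
import Mathlib
import Fermat.Agent.ProgramR.BarField.ToFunField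
import Fermat.Agent.ProgramR.Alg.Setup
import Fermat.Agent.ProgramR.Analytic.Gamma0Chart
import Fermat.Agent.ProgramR.Descent.SemilinearThmA

set_option autoImplicit false
set_option linter.unusedSectionVars false

noncomputable section

namespace Fermat.Agent.ProgramR.Descent

open Polynomial CongruenceSubgroup ModularCurve UpperHalfPlane
open Fermat.Agent.ProgramR.Alg Fermat.Agent.ProgramR.BarField Fermat.Agent.ProgramR.QExp
open scoped MatrixGroups

variable (N : ℕ) [NeZero N]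

attribute [local instance] Genus.cosetFintype

/-- The `q`-expansion at `i∞` on `F_N = FF ℂ (WH0 Γ₀(N))` (helper3's model of the fraction field;
the same map as helper8's `BarField.qExpFF`). -/
def qExpF : FF ℂ (WH0 (Gamma0 N)) →+* LaurentSeries ℂ :=
  IsFractionRing.lift (qExpWH0_injective N)

lemma qExpF_algebraMap (h : ↥(WH0 (Gamma0 N))) :
    qExpF N (algebraMap _ (FF ℂ (WH0 (Gamma0 N))) h) = laurentExp 1 (h : ℍ → ℂ) :=
  IsFractionRing.lift_algebraMap _ h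

lemma qExpF_injective : Function.Injective (qExpF N) := (qExpF N).injective

lemma qExpF_jdWH0 (d : ℕ) [NeZero d] (hd : d ∣ N) :
    qExpF N (algebraMap _ (FF ℂ (WH0 (Gamma0 N))) (jdWH0 N d hd)) =
      qExpand ℂ d (jqModC ℂ) := by
  rw [qExpF_algebraMap, coe_jdWH0, laurentExp_jScaledFun]

lemma qExpF_const (c : ℂ) :
    qExpF N (algebraMap _ (FF ℂ (WH0 (Gamma0 N))) (algebraMap ℂ (WH0 (Gamma0 N)) c)) =
      HahnSeries.C c := by
  rw [qExpF_algebraMap]
  exact laurentExp_const one_pos c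

/-- `qExpF` as an isomorphism onto its range. -/
def qExpFEquiv : FF ℂ (WH0 (Gamma0 N)) ≃+* (qExpF N).fieldRange :=
  RingEquiv.ofBijective (qExpF N).rangeRestrictField
    ⟨fun a b h => qExpF_injective N (congrArg Subtype.val h),
     fun ⟨y, hy⟩ => by
      obtain ⟨x, rfl⟩ := RingHom.mem_fieldRange.mp hy
      exact ⟨x, rfl⟩⟩

lemma coe_qExpFEquiv (x : FF ℂ (WH0 (Gamma0 N))) :
    ((qExpFEquiv N x : (qExpF N).fieldRange) : LaurentSeries ℂ) = qExpF N x := rfl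

/-- `q`-expansions with coefficients twisted by `τ`: the subfield of `F_N` of those `h` for which
`τ(qExp h)` is again a `q`-expansion of an element of `F_N`. -/
def stableField (τ : ℂ →+* ℂ) : Subfield (FF ℂ (WH0 (Gamma0 N))) :=
  ((qExpF N).fieldRange.comap (coeffMap τ)).comap (qExpF N)

theorem mem_stableField (τ : ℂ →+* ℂ) (h : FF ℂ (WH0 (Gamma0 N))) :
    h ∈ stableField N τ ↔ ∃ h' : FF ℂ (WH0 (Gamma0 N)), qExpF N h' = coeffMap τ (qExpF N h) := by
  unfold stableField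
  rw [Subfield.mem_comap, Subfield.mem_comap, RingHom.mem_fieldRange]

theorem coeffMap_C (τ : ℂ →+* ℂ) (c : ℂ) :
    coeffMap τ (HahnSeries.C c : LaurentSeries ℂ) = HahnSeries.C (τ c) := by
  show coeffMap τ (HahnSeries.single 0 c) = HahnSeries.single 0 (τ c)
  exact coeffMap_single τ 0 c

theorem coeffMap_jqModC (τ : ℂ →+* ℂ) : coeffMap τ (jqModC ℂ) = jqModC ℂ :=
  map_jqModC τ

theorem const_mem_stableField (τ : ℂ →+* ℂ) (c : ℂ) :
    algebraMap _ (FF ℂ (WH0 (Gamma0 N))) (algebraMap ℂ (WH0 (Gamma0 N)) c) ∈ stableField N τ := by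
  rw [mem_stableField]
  refine ⟨algebraMap _ (FF ℂ (WH0 (Gamma0 N))) (algebraMap ℂ (WH0 (Gamma0 N)) (τ c)), ?_⟩
  rw [qExpF_const, qExpF_const, coeffMap_C]

theorem jd_mem_stableField (τ : ℂ →+* ℂ) (d : ℕ) [NeZero d] (hd : d ∣ N) :
    algebraMap _ (FF ℂ (WH0 (Gamma0 N))) (jdWH0 N d hd) ∈ stableField N τ := by
  rw [mem_stableField]
  refine ⟨algebraMap _ (FF ℂ (WH0 (Gamma0 N))) (jdWH0 N d hd), ?_⟩
  rw [qExpF_jdWH0, coeffMap_qExpand, coeffMap_jqModC]

/-- `X ↦ j`: the image of `X` in `WH0 Γ₀(N)` is `jdWH0 N 1`. -/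
theorem algebraMap_X_eq_jdWH0 :
    algebraMap ℂ[X] (WH0 (Gamma0 N)) X = jdWH0 N 1 (one_dvd N) := by
  rw [WH0.algebraMap_poly, Polynomial.aeval_X]
  apply Subtype.ext
  funext z
  show LevelOne.jInv z = jScaledFun 1 z
  rw [jScaledFun, Function.comp_apply]
  congr 1
  apply UpperHalfPlane.ext
  rw [coe_scaleH]
  simp

theorem algebraMap_poly_mem_stableField (τ : ℂ →+* ℂ) (p : ℂ[X]) :
    algebraMap _ (FF ℂ (WH0 (Gamma0 N))) (algebraMap ℂ[X] (WH0 (Gamma0 N)) p) ∈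
      stableField N τ := by
  induction p using Polynomial.induction_on' with
  | add p q hp hq =>
    rw [map_add, map_add]
    exact (stableField N τ).add_mem hp hq
  | monomial n a =>
    rw [← Polynomial.C_mul_X_pow_eq_monomial, map_mul, map_mul, map_pow, map_pow]
    refine (stableField N τ).mul_mem ?_ ((stableField N τ).pow_mem ?_ n)
    · have : algebraMap ℂ[X] (WH0 (Gamma0 N)) (C a) = algebraMap ℂ (WH0 (Gamma0 N)) a := by
        rw [← Polynomial.algebraMap_eq, ← IsScalarTower.algebraMap_apply ℂ ℂ[X] (WH0 (Gamma0 N))]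
      rw [this]
      exact const_mem_stableField N τ a
    · rw [algebraMap_X_eq_jdWH0]
      exact jd_mem_stableField N τ 1 (one_dvd N)

/-- The primitive element hypothesis: `F_N = ℂ(j)(j_N)`. -/
def PrimitiveJN : Prop :=
  IntermediateField.adjoin (RatFunc ℂ)
    {algebraMap (WH0 (Gamma0 N)) (FF ℂ (WH0 (Gamma0 N))) (jdWH0 N N dvd_rfl)} = ⊤

theorem algebraMap_ratFunc_mem_stableField (τ : ℂ →+* ℂ) (r : RatFunc ℂ) :
    (algebraMap (RatFunc ℂ) (FF ℂ (WH0 (Gamma0 N))) r : FF ℂ (WH0 (Gamma0 N))) ∈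
      stableField N τ := by
  obtain ⟨p, q, -, rfl⟩ := IsFractionRing.div_surjective (A := ℂ[X]) r
  rw [map_div₀]
  have key : ∀ s : ℂ[X], (algebraMap (RatFunc ℂ) (FF ℂ (WH0 (Gamma0 N)))
      (algebraMap ℂ[X] (RatFunc ℂ) s) : FF ℂ (WH0 (Gamma0 N))) ∈ stableField N τ := by
    intro s
    rw [← IsScalarTower.algebraMap_apply ℂ[X] (RatFunc ℂ) (FF ℂ (WH0 (Gamma0 N))),
      IsScalarTower.algebraMap_apply ℂ[X] (WH0 (Gamma0 N)) (FF ℂ (WH0 (Gamma0 N)))]
    exact algebraMap_poly_mem_stableField N τ s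
  exact (stableField N τ).div_mem (key p) (key q)

theorem stableField_eq_top (hprim : PrimitiveJN N) (τ : ℂ →+* ℂ) : stableField N τ = ⊤ := by
  let S' : IntermediateField (RatFunc ℂ) (FF ℂ (WH0 (Gamma0 N))) :=
    { (stableField N τ : Subfield (FF ℂ (WH0 (Gamma0 N)))) with
      algebraMap_mem' := algebraMap_ratFunc_mem_stableField N τ }
  have hle : (⊤ : IntermediateField (RatFunc ℂ) (FF ℂ (WH0 (Gamma0 N)))) ≤ S' := by
    rw [← hprim, IntermediateField.adjoin_le_iff, Set.singleton_subset_iff]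
    exact jd_mem_stableField N τ N dvd_rfl
  rw [eq_top_iff]
  intro h _
  exact hle (IntermediateField.mem_top (x := h))

/-- The ring endomorphism of `F_N` induced by `τ` acting on `q`-expansion coefficients. -/
def tauFHom (hprim : PrimitiveJN N) (τ : ℂ →+* ℂ) :
    FF ℂ (WH0 (Gamma0 N)) →+* FF ℂ (WH0 (Gamma0 N)) :=
  ((qExpFEquiv N).symm : (qExpF N).fieldRange →+* FF ℂ (WH0 (Gamma0 N))).comp
    (((coeffMap τ).comp (qExpF N)).codRestrict (qExpF N).fieldRange (fun h => by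
      have h1 : h ∈ stableField N τ := by
        rw [stableField_eq_top N hprim τ]
        exact Subfield.mem_top h
      exact h1))

theorem qExpF_tauFHom (hprim : PrimitiveJN N) (τ : ℂ →+* ℂ) (h : FF ℂ (WH0 (Gamma0 N))) :
    qExpF N (tauFHom N hprim τ h) = coeffMap τ (qExpF N h) := by
  have h1 := coe_qExpFEquiv N (tauFHom N hprim τ h)
  rw [← h1]
  simp only [tauFHom, RingHom.coe_comp, Function.comp_apply, RingHom.coe_coe,
    RingEquiv.apply_symm_apply]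
  rfl

theorem tauFHom_comp (hprim : PrimitiveJN N) (τ τ' : ℂ →+* ℂ) (h : FF ℂ (WH0 (Gamma0 N))) :
    tauFHom N hprim τ (tauFHom N hprim τ' h) = tauFHom N hprim (τ.comp τ') h := by
  apply qExpF_injective N
  rw [qExpF_tauFHom, qExpF_tauFHom, qExpF_tauFHom, coeffMap_coeffMap]

theorem tauFHom_id (hprim : PrimitiveJN N) (h : FF ℂ (WH0 (Gamma0 N))) :
    tauFHom N hprim (RingHom.id ℂ) h = h := by
  apply qExpF_injective N
  rw [qExpF_tauFHom, coeffMap_id]

/-- **D4b**: the ring automorphism of `F_N` induced by a field automorphism of `ℂ`. -/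
def tauF (hprim : PrimitiveJN N) (τ : ℂ ≃+* ℂ) :
    FF ℂ (WH0 (Gamma0 N)) ≃+* FF ℂ (WH0 (Gamma0 N)) :=
  RingEquiv.ofRingHom (tauFHom N hprim (τ : ℂ →+* ℂ)) (tauFHom N hprim (τ.symm : ℂ →+* ℂ))
    (by
      ext h
      simp only [RingHom.coe_comp, Function.comp_apply, RingHom.id_apply]
      rw [tauFHom_comp]
      have : (τ : ℂ →+* ℂ).comp (τ.symm : ℂ →+* ℂ) = RingHom.id ℂ := by
        ext c
        simp
      rw [this, tauFHom_id])
    (by
      ext h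
      simp only [RingHom.coe_comp, Function.comp_apply, RingHom.id_apply]
      rw [tauFHom_comp]
      have : (τ.symm : ℂ →+* ℂ).comp (τ : ℂ →+* ℂ) = RingHom.id ℂ := by
        ext c
        simp
      rw [this, tauFHom_id])

theorem qExpF_tauF (hprim : PrimitiveJN N) (τ : ℂ ≃+* ℂ) (h : FF ℂ (WH0 (Gamma0 N))) :
    qExpF N (tauF N hprim τ h) = coeffMap (τ : ℂ →+* ℂ) (qExpF N h) :=
  qExpF_tauFHom N hprim τ h

theorem tauF_algebraMap (hprim : PrimitiveJN N) (τ : ℂ ≃+* ℂ) (c : ℂ) :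
    tauF N hprim τ (algebraMap ℂ (FF ℂ (WH0 (Gamma0 N))) c) =
      algebraMap ℂ (FF ℂ (WH0 (Gamma0 N))) (τ c) := by
  apply qExpF_injective N
  rw [qExpF_tauF, IsScalarTower.algebraMap_apply ℂ (WH0 (Gamma0 N)) (FF ℂ (WH0 (Gamma0 N))),
    IsScalarTower.algebraMap_apply ℂ (WH0 (Gamma0 N)) (FF ℂ (WH0 (Gamma0 N)))]
  show coeffMap (τ : ℂ →+* ℂ) (qExpF N (algebraMap _ (FF ℂ (WH0 (Gamma0 N)))
    (algebraMap ℂ (WH0 (Gamma0 N)) c))) = qExpF N (algebraMap _ (FF ℂ (WH0 (Gamma0 N)))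
    (algebraMap ℂ (WH0 (Gamma0 N)) (τ c)))
  rw [qExpF_const, qExpF_const, coeffMap_C]
  rfl

theorem xF_eq_algebraMap_jdWH0 :
    xF ℂ (FF ℂ (WH0 (Gamma0 N))) =
      algebraMap (WH0 (Gamma0 N)) (FF ℂ (WH0 (Gamma0 N))) (jdWH0 N 1 (one_dvd N)) := by
  rw [xF, ← RatFunc.algebraMap_X,
    ← IsScalarTower.algebraMap_apply ℂ[X] (RatFunc ℂ) (FF ℂ (WH0 (Gamma0 N))),
    IsScalarTower.algebraMap_apply ℂ[X] (WH0 (Gamma0 N)) (FF ℂ (WH0 (Gamma0 N))),
    algebraMap_X_eq_jdWH0]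

theorem tauF_xF (hprim : PrimitiveJN N) (τ : ℂ ≃+* ℂ) :
    tauF N hprim τ (xF ℂ (FF ℂ (WH0 (Gamma0 N)))) = xF ℂ (FF ℂ (WH0 (Gamma0 N))) := by
  apply qExpF_injective N
  rw [qExpF_tauF, xF_eq_algebraMap_jdWH0]
  show coeffMap (τ : ℂ →+* ℂ) (qExpF N (algebraMap _ (FF ℂ (WH0 (Gamma0 N)))
    (jdWH0 N 1 (one_dvd N)))) = qExpF N (algebraMap _ (FF ℂ (WH0 (Gamma0 N)))
    (jdWH0 N 1 (one_dvd N)))
  rw [qExpF_jdWH0, coeffMap_qExpand, coeffMap_jqModC]

/-- **D4a + D4b**: `tauF` preserves the two conditions defining the space `W` of holomorphic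
differentials. -/
theorem finCond_tauF_iff (hprim : PrimitiveJN N) (τ : ℂ ≃+* ℂ) (h : FF ℂ (WH0 (Gamma0 N))) :
    FinCond ℂ (FF ℂ (WH0 (Gamma0 N))) (WH0 (Gamma0 N)) (tauF N hprim τ h) ↔
      FinCond ℂ (FF ℂ (WH0 (Gamma0 N))) (WH0 (Gamma0 N)) h :=
  finCond_apply_iff ℂ _ _ (tauF N hprim τ) τ (tauF_algebraMap N hprim τ) (tauF_xF N hprim τ) h

theorem infCond_tauF_iff (hprim : PrimitiveJN N) (τ : ℂ ≃+* ℂ) (h : FF ℂ (WH0 (Gamma0 N))) :
    InfCond ℂ (FF ℂ (WH0 (Gamma0 N))) (Binf ℂ (WH0 (Gamma0 N))) (tauF N hprim τ h) ↔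
      InfCond ℂ (FF ℂ (WH0 (Gamma0 N))) (Binf ℂ (WH0 (Gamma0 N))) h :=
  infCond_apply_iff ℂ _ _ (tauF N hprim τ) τ (tauF_algebraMap N hprim τ) (tauF_xF N hprim τ) h

/-- `qExpF` is helper8's `BarField.qExpFF` (the two models of the fraction field are
definitionally the same type). -/
theorem qExpF_eq_qExpFF (h : FF ℂ (WH0 (Gamma0 N))) :
    qExpF N h = BarField.qExpFF N (h : WH0.FunField (Gamma0 N)) := rfl

/-- `tauF` preserves any subspace `W` cut out by `FinCond ∧ InfCond`. -/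
theorem tauF_mem_iff (hprim : PrimitiveJN N) (τ : ℂ ≃+* ℂ)
    (W : Submodule ℂ (FF ℂ (WH0 (Gamma0 N))))
    (hW : ∀ h, h ∈ W ↔ FinCond ℂ (FF ℂ (WH0 (Gamma0 N))) (WH0 (Gamma0 N)) h ∧
      InfCond ℂ (FF ℂ (WH0 (Gamma0 N))) (Binf ℂ (WH0 (Gamma0 N))) h)
    (h : FF ℂ (WH0 (Gamma0 N))) : tauF N hprim τ h ∈ W ↔ h ∈ W := by
  rw [hW, hW, finCond_tauF_iff, infCond_tauF_iff]

end Fermat.Agent.ProgramR.Descent
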