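/-
Program R / Descent (D1): the fixed field of the group of ring automorphisms of an algebraically
closed field of characteristic zero is `ℚ`
(stated for an arbitrary base field `k` of characteristic zero).
Main result: `exists_ringEquiv_ne`.
-/
import Mathlib

set_option autoImplicit false

namespace Fermat.Agent.ProgramR.Descent

open MvPolynomial

section Extend

variable {k K : Type*} [Field k] [Field K] [IsAlgClosed K] [Algebra k K]
variable {ι : Type*} {v : ι → K}

/-- Any ring automorphism of the polynomial ring on a transcendence basis extends to a ring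
automorphism of the algebraically closed field. -/
theorem exists_ringEquiv_extending (hv : IsTranscendenceBasis k v)
    (φ : MvPolynomial ι k ≃+* MvPolynomial ι k) :
    ∃ τ : K ≃+* K, ∀ p : MvPolynomial ι k, τ (aeval v p) = aeval v (φ p) := by
  have := IsAlgClosed.isAlgClosure_of_transcendence_basis v hv
  let e₀ : MvPolynomial ι k ≃+* Algebra.adjoin k (Set.range v) := hv.1.aevalEquiv.toRingEquiv
  let e : Algebra.adjoin k (Set.range v) ≃+* Algebra.adjoin k (Set.range v) :=
    e₀.symm.trans (φ.trans e₀)
  refine ⟨IsAlgClosure.equivOfEquiv K K e, fun p => ?_⟩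
  have h1 : aeval v p = algebraMap (Algebra.adjoin k (Set.range v)) K (e₀ p) := rfl
  have h2 : aeval v (φ p) = algebraMap (Algebra.adjoin k (Set.range v)) K (e₀ (φ p)) := rfl
  rw [h1, h2, IsAlgClosure.equivOfEquiv_algebraMap]
  congr 1
  show e₀ (φ (e₀.symm (e₀ p))) = e₀ (φ p)
  rw [RingEquiv.symm_apply_apply]

end Extend

section Shift

variable {k : Type*} [Field k] {ι : Type*} [DecidableEq ι]

/-- The automorphism `X i₀ ↦ X i₀ + c` of a polynomial ring. -/
noncomputable def shiftHom (i₀ : ι) (c : k) : MvPolynomial ι k →ₐ[k] MvPolynomial ι k :=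
  aeval (fun i => if i = i₀ then X i + C c else X i)

theorem shiftHom_X (i₀ : ι) (c : k) (i : ι) :
    shiftHom i₀ c (X i) = if i = i₀ then X i + C c else X i := by
  simp [shiftHom]

theorem shiftHom_comp (i₀ : ι) (c d : k) (p : MvPolynomial ι k) :
    shiftHom i₀ c (shiftHom i₀ d p) = shiftHom i₀ (c + d) p := by
  have : (shiftHom i₀ c).comp (shiftHom i₀ d) = shiftHom (k := k) i₀ (c + d) := by
    apply MvPolynomial.algHom_ext
    intro i
    rw [AlgHom.comp_apply, shiftHom_X, shiftHom_X]
    by_cases h : i = i₀
    · have hC : shiftHom i₀ c (C d) = C d := by simp [shiftHom]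
      simp only [h, if_true, map_add, shiftHom_X]
      rw [hC]; ring
    · simp only [h, if_false, shiftHom_X]
  exact congrArg (fun f => f p) this

theorem shiftHom_zero (i₀ : ι) (p : MvPolynomial ι k) : shiftHom i₀ (0 : k) p = p := by
  have : shiftHom (k := k) i₀ 0 = AlgHom.id k _ := by
    apply MvPolynomial.algHom_ext
    intro i
    rw [shiftHom_X]
    by_cases h : i = i₀ <;> simp [h]
  exact congrArg (fun f => f p) this

/-- The shift as a ring automorphism. -/
noncomputable def shiftEquiv (i₀ : ι) (c : k) : MvPolynomial ι k ≃+* MvPolynomial ι k where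
  toFun := shiftHom i₀ c
  invFun := shiftHom i₀ (-c)
  left_inv p := by rw [shiftHom_comp, neg_add_cancel, shiftHom_zero]
  right_inv p := by rw [shiftHom_comp, add_neg_cancel, shiftHom_zero]
  map_mul' := map_mul _
  map_add' := map_add _

end Shift

section Main

variable {k K : Type*} [Field k] [CharZero k] [Field K] [IsAlgClosed K] [Algebra k K]

omit [CharZero k] in
/-- A transcendental element is moved by some automorphism. -/
theorem exists_ringEquiv_ne_of_transcendental {x : K} (hx : Transcendental k x) :
    ∃ τ : K ≃+* K, τ x ≠ x := by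
  classical
  have hind : AlgebraicIndepOn k id ({x} : Set K) := by
    have : AlgebraicIndependent k (fun i : ({x} : Set K) => (i : K)) := by
      rw [algebraicIndependent_singleton_iff ⟨x, rfl⟩]
      exact hx
    exact this
  obtain ⟨s, hxs, hs⟩ := exists_isTranscendenceBasis_superset hind
  have hxmem : x ∈ s := hxs rfl
  obtain ⟨τ, hτ⟩ := exists_ringEquiv_extending hs (shiftEquiv (k := k) ⟨x, hxmem⟩ 1)
  refine ⟨τ, ?_⟩
  have h := hτ (X ⟨x, hxmem⟩)
  rw [aeval_X] at h
  have h2 : shiftEquiv (k := k) (⟨x, hxmem⟩ : s) 1 (X ⟨x, hxmem⟩) = X ⟨x, hxmem⟩ + C 1 := by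
    show shiftHom _ _ _ = _
    rw [shiftHom_X, if_pos rfl]
  rw [h2, map_add, aeval_X, aeval_C] at h
  simp only [map_one] at h
  rw [h]
  intro h3
  have : (1 : K) = 0 := by linear_combination h3
  exact one_ne_zero this

local notation "A" => algebraicClosure k K

/-- An algebraic irrational element is moved by some automorphism. -/
theorem exists_ringEquiv_ne_of_isAlgebraic {x : K} (hx : IsAlgebraic k x)
    (hx' : x ∉ Set.range (algebraMap k K)) : ∃ τ : K ≃+* K, τ x ≠ x := by
  classical
  have hxA : x ∈ A := mem_algebraicClosure_iff.mpr hx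
  have hnot : (⟨x, hxA⟩ : A) ∉ Set.range (algebraMap k A) := by
    rintro ⟨r, hr⟩
    apply hx'
    refine ⟨r, ?_⟩
    have := congrArg (fun a : A => (a : K)) hr
    simpa using this
  have : IsGalois k A := ⟨⟩
  rw [InfiniteGalois.mem_range_algebraMap_iff_fixed] at hnot
  push Not at hnot
  obtain ⟨σ, hσ⟩ := hnot
  -- extend `σ` to `K` through a transcendence basis of `K` over `A`
  obtain ⟨s, hs⟩ := exists_isTranscendenceBasis A K
  let φ : MvPolynomial s A ≃+* MvPolynomial s A :=
    { toFun := MvPolynomial.map (σ : A →+* A)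
      invFun := MvPolynomial.map (σ.symm : A →+* A)
      left_inv := fun p => by
        rw [MvPolynomial.map_map]
        have : ((σ.symm : A →+* A)).comp (σ : A →+* A) = RingHom.id A := by
          ext a; simp
        rw [this, MvPolynomial.map_id]
      right_inv := fun p => by
        rw [MvPolynomial.map_map]
        have : ((σ : A →+* A)).comp (σ.symm : A →+* A) = RingHom.id A := by
          ext a; simp
        rw [this, MvPolynomial.map_id]
      map_mul' := map_mul _
      map_add' := map_add _ }
  obtain ⟨τ, hτ⟩ := exists_ringEquiv_extending hs φ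
  refine ⟨τ, ?_⟩
  have h := hτ (C ⟨x, hxA⟩)
  have h2 : φ (C ⟨x, hxA⟩) = C (σ ⟨x, hxA⟩) := by
    show MvPolynomial.map (σ : A →+* A) (C ⟨x, hxA⟩) = _
    rw [MvPolynomial.map_C]; rfl
  rw [h2, aeval_C, aeval_C] at h
  have h3 : algebraMap A K ⟨x, hxA⟩ = x := rfl
  rw [h3] at h
  rw [h]
  intro h4
  apply hσ
  apply Subtype.ext
  exact h4

/-- The fixed field of the group of all ring automorphisms of an algebraically closed field of
characteristic zero is `ℚ`. -/
theorem exists_ringEquiv_ne {x : K} (hx : x ∉ Set.range (algebraMap k K)) :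
    ∃ τ : K ≃+* K, τ x ≠ x := by
  by_cases h : IsAlgebraic k x
  · exact exists_ringEquiv_ne_of_isAlgebraic h hx
  · exact exists_ringEquiv_ne_of_transcendental h

/-- An element fixed by all ring automorphisms is rational. -/
theorem mem_range_of_forall_ringEquiv_eq {x : K} (h : ∀ τ : K ≃+* K, τ x = x) :
    x ∈ Set.range (algebraMap k K) := by
  by_contra hx
  obtain ⟨τ, hτ⟩ := exists_ringEquiv_ne hx
  exact hτ (h τ)

end Main

end Fermat.Agent.ProgramR.Descent
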