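/-
Program R / Descent (D2, D3): a finite-dimensional complex vector space with a separating family
of "coefficient functionals" `a n`, stable under all field automorphisms of `ℂ` acting on the
coefficients, is spanned by its elements with rational coefficients; if moreover the coefficient
functionals generate a finitely generated `ℤ`-module, it is spanned by its elements with integral
coefficients.
-/
import Fermat.Agent.ProgramR.Descent.AutC

set_option autoImplicit false

namespace Fermat.Agent.ProgramR.Descent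

open Module

variable {V : Type*} [AddCommGroup V] [Module ℂ V] [FiniteDimensional ℂ V]
variable (a : ℕ → V →ₗ[ℂ] ℂ)

/-- A separating family of functionals spans the dual. -/
theorem span_range_eq_top_of_separating (hinj : ∀ f : V, (∀ n, a n f = 0) → f = 0) :
    Submodule.span ℂ (Set.range a) = (⊤ : Submodule ℂ (Dual ℂ V)) := by
  have h0 : (Submodule.span ℂ (Set.range a)).dualCoannihilator = ⊥ := by
    rw [eq_bot_iff]
    intro x hx
    rw [Submodule.mem_dualCoannihilator] at hx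
    rw [Submodule.mem_bot]
    exact hinj x fun n => hx (a n) (Submodule.subset_span ⟨n, rfl⟩)
  have h1 := Subspace.dualCoannihilator_dualAnnihilator_eq
    (W := Submodule.span ℂ (Set.range a))
  rw [h0, Submodule.dualAnnihilator_bot] at h1
  exact h1.symm

/-- Rational descent: there is a basis of `V` consisting of elements all of whose coefficients
are rational. -/
theorem exists_basis_rat_coeff (hinj : ∀ f : V, (∀ n, a n f = 0) → f = 0)
    (hstab : ∀ (τ : ℂ ≃+* ℂ) (f : V), ∃ g : V, ∀ n, a n g = τ (a n f)) :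
    ∃ (ι : Type) (_ : Fintype ι) (B : Basis ι ℂ V), ∀ j n, ∃ r : ℚ, a n (B j) = (r : ℂ) := by
  classical
  have hspan := span_range_eq_top_of_separating a hinj
  obtain ⟨b, hb_sub, hb_span, hb_li⟩ := exists_linearIndependent ℂ (Set.range a)
  have hb_top : ⊤ ≤ Submodule.span ℂ (Set.range ((↑) : b → Dual ℂ V)) := by
    rw [Subtype.range_coe, hb_span, hspan]
  let B : Basis b ℂ (Dual ℂ V) := Basis.mk hb_li hb_top
  have hBi : ∀ i : b, B i = (i : Dual ℂ V) := fun i => by simp [B]
  have : Fintype b := FiniteDimensional.fintypeBasisIndex B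
  let Bv : Basis b ℂ V := B.dualBasis.map (Module.evalEquiv ℂ V).symm
  have hpair : ∀ i j : b, (B i) (Bv j) = if i = j then 1 else 0 := by
    intro i j
    have h1 : Module.evalEquiv ℂ V (Bv j) = B.dualBasis j := by
      simp [Bv]
    have h2 : (Module.evalEquiv ℂ V (Bv j)) (B i) = (B i) (Bv j) := by
      simp [Module.evalEquiv]
    rw [← h2, h1, Basis.dualBasis_apply_self]
  have hidx : ∀ i : b, ∃ n : ℕ, a n = B i := by
    intro i
    obtain ⟨n, hn⟩ := hb_sub i.2
    exact ⟨n, by rw [hBi]; exact hn⟩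
  -- equip with a `Type`-valued index
  have hfix : ∀ (τ : ℂ ≃+* ℂ) (j : b) (n : ℕ), τ (a n (Bv j)) = a n (Bv j) := by
    intro τ j n
    obtain ⟨g, hg⟩ := hstab τ (Bv j)
    have hgj : g = Bv j := by
      rw [← sub_eq_zero]
      apply (Module.forall_dual_apply_eq_zero_iff ℂ (g - Bv j)).mp
      intro φ
      have hφ : φ ∈ Submodule.span ℂ (Set.range B) := by rw [B.span_eq]; trivial
      refine Submodule.span_induction ?_ ?_ ?_ ?_ hφ
      · rintro _ ⟨i, rfl⟩
        obtain ⟨m, hm⟩ := hidx i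
        rw [map_sub, ← hm, hg m, hm, hpair]
        by_cases h : i = j <;> simp [h]
      · simp
      · intro x y _ _ hx hy
        rw [LinearMap.add_apply, hx, hy, add_zero]
      · intro c x _ hx
        rw [LinearMap.smul_apply, hx, smul_zero]
    rw [← hg n, hgj]
  have hrat : ∀ (j : b) (n : ℕ), ∃ r : ℚ, a n (Bv j) = (r : ℂ) := by
    intro j n
    obtain ⟨r, hr⟩ := mem_range_of_forall_ringEquiv_eq (k := ℚ) (fun τ => hfix τ j n)
    exact ⟨r, by rw [← hr]; simp⟩
  -- reindex by `Fin`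
  let e : b ≃ Fin (Fintype.card b) := Fintype.equivFin b
  refine ⟨Fin (Fintype.card b), inferInstance, Bv.reindex e, fun j n => ?_⟩
  rw [Basis.reindex_apply]
  exact hrat _ n

/-- Integral descent (bounded denominators). -/
theorem span_int_coeff_eq_top (hinj : ∀ f : V, (∀ n, a n f = 0) → f = 0)
    (hstab : ∀ (τ : ℂ ≃+* ℂ) (f : V), ∃ g : V, ∀ n, a n g = τ (a n f))
    (hfg : (Submodule.span ℤ (Set.range a) : Submodule ℤ (V →ₗ[ℂ] ℂ)).FG) :
    Submodule.span ℂ {f : V | ∀ n, ∃ m : ℤ, a n f = (m : ℂ)} = ⊤ := by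
  classical
  obtain ⟨ι, _, B, hB⟩ := exists_basis_rat_coeff a hinj hstab
  obtain ⟨S, hS⟩ := Submodule.fg_def.mp hfg
  obtain ⟨hSfin, hSspan⟩ := hS
  -- every element of the `ℤ`-span takes rational values on the basis
  have hratspan : ∀ (j : ι) (φ : V →ₗ[ℂ] ℂ), φ ∈ Submodule.span ℤ (Set.range a) →
      ∃ r : ℚ, φ (B j) = (r : ℂ) := by
    intro j φ hφ
    refine Submodule.span_induction ?_ ?_ ?_ ?_ hφ
    · rintro _ ⟨n, rfl⟩; exact hB j n
    · exact ⟨0, by simp⟩
    · rintro x y _ _ ⟨r, hr⟩ ⟨s, hs⟩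
      exact ⟨r + s, by rw [LinearMap.add_apply, hr, hs]; push_cast; ring⟩
    · rintro c x _ ⟨r, hr⟩
      exact ⟨c * r, by rw [LinearMap.smul_apply, hr]; push_cast; simp⟩
  -- a common denominator for each basis vector
  have hden : ∀ j : ι, ∃ M : ℕ, M ≠ 0 ∧ ∀ n, ∃ m : ℤ, a n ((M : ℂ) • B j) = (m : ℂ) := by
    intro j
    have hS' : ∀ φ ∈ S, ∃ r : ℚ, φ (B j) = (r : ℂ) := fun φ hφ =>
      hratspan j φ (by rw [← hSspan]; exact Submodule.subset_span hφ)
    choose! r hr using hS'
    let M : ℕ := ∏ φ ∈ hSfin.toFinset, (r φ).den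
    have hM0 : M ≠ 0 := Finset.prod_ne_zero_iff.mpr fun φ _ => (r φ).den_nz
    refine ⟨M, hM0, fun n => ?_⟩
    have hint : ∀ φ : V →ₗ[ℂ] ℂ, φ ∈ Submodule.span ℤ S → ∃ m : ℤ, (M : ℂ) * φ (B j) = (m : ℂ) := by
      intro φ hφ
      refine Submodule.span_induction ?_ ?_ ?_ ?_ hφ
      · intro ψ hψ
        have hdvd : (r ψ).den ∣ M :=
          Finset.dvd_prod_of_mem _ (hSfin.mem_toFinset.mpr hψ)
        obtain ⟨c, hc⟩ := hdvd
        refine ⟨(c : ℤ) * (r ψ).num, ?_⟩
        rw [hr ψ hψ, hc]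
        have hq : ((r ψ : ℚ) : ℂ) = ((r ψ).num : ℂ) / ((r ψ).den : ℂ) := by
          conv_lhs => rw [← Rat.num_div_den (r ψ)]
          push_cast; rfl
        have hd0 : ((r ψ).den : ℂ) ≠ 0 := Nat.cast_ne_zero.mpr (r ψ).den_nz
        rw [hq]; push_cast; field_simp
      · exact ⟨0, by simp⟩
      · rintro x y _ _ ⟨m₁, h₁⟩ ⟨m₂, h₂⟩
        exact ⟨m₁ + m₂, by rw [LinearMap.add_apply, mul_add, h₁, h₂]; push_cast; ring⟩
      · rintro c x _ ⟨m₁, h₁⟩
        refine ⟨c * m₁, ?_⟩
        rw [LinearMap.smul_apply]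
        have : (M : ℂ) * (c • x (B j)) = (c : ℂ) * ((M : ℂ) * x (B j)) := by
          rw [zsmul_eq_mul]; ring
        rw [this, h₁]; push_cast; ring
    have hmem : a n ∈ Submodule.span ℤ S := by
      rw [hSspan]; exact Submodule.subset_span ⟨n, rfl⟩
    obtain ⟨m, hm⟩ := hint (a n) hmem
    exact ⟨m, by rw [map_smul, smul_eq_mul, hm]⟩
  choose M hM0 hM using hden
  rw [eq_top_iff, ← B.span_eq]
  apply Submodule.span_le.mpr
  rintro _ ⟨j, rfl⟩
  have hmem : (M j : ℂ) • B j ∈ Submodule.span ℂ {f : V | ∀ n, ∃ m : ℤ, a n f = (m : ℂ)} :=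
    Submodule.subset_span (hM j)
  have hM0' : (M j : ℂ) ≠ 0 := Nat.cast_ne_zero.mpr (hM0 j)
  have := Submodule.smul_mem _ ((M j : ℂ)⁻¹) hmem
  rwa [smul_smul, inv_mul_cancel₀ hM0', one_smul] at this

end Fermat.Agent.ProgramR.Descent
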