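/-
Program R / Descent (I2): the `ℤ`-module generated by the `q`-coefficient functionals on
`S₂(Γ₀(N))` is finitely generated (from S22: the Hecke algebra is a finitely generated
`ℤ`-module, and `a_n = a_1 ∘ t_n` with `t_n` in the Hecke algebra).  Consequence: S23 follows from
the stability of the `q`-expansions of `S₂(Γ₀(N))` under the automorphisms of `ℂ`.
-/
import Fermat.Agent.Helper8.QCoeff
import Fermat.Agent.S22
import Fermat.Agent.ProgramR.Descent.Echelon

set_option autoImplicit false

namespace Fermat.Agent.ProgramR.Descent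

open CuspForm ModularFormClass CongruenceSubgroup
open Fermat.Agent

noncomputable section

variable (N : ℕ) [NeZero N]

/-- The `n`-th `q`-coefficient as a linear functional on weight-2 cusp forms. -/
def coeffFun (n : ℕ) : CuspForm (Gamma0 N) 2 →ₗ[ℂ] ℂ where
  toFun f := qCoeff f n
  map_add' f g := Helper8.qCoeff_add f g n
  map_smul' c f := by
    rw [Helper8.qCoeff_smul]; rfl

omit [NeZero N] in
@[simp] theorem coeffFun_apply (n : ℕ) (f : CuspForm (Gamma0 N) 2) :
    coeffFun N n f = qCoeff f n := rfl

/-- `T ↦ a_1 ∘ T` on the Hecke algebra. -/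
def heckePairing : (CuspForm.heckeAlgebra N 2 ∅) →ₗ[ℤ] (CuspForm (Gamma0 N) 2 →ₗ[ℂ] ℂ) where
  toFun T := (coeffFun N 1).comp (T : Module.End ℂ (CuspForm (Gamma0 N) 2))
  map_add' T T' := by
    ext f
    simp only [LinearMap.comp_apply, LinearMap.add_apply]
    rw [show ((T + T' : CuspForm.heckeAlgebra N 2 ∅) : Module.End ℂ (CuspForm (Gamma0 N) 2))
      = (T : Module.End ℂ _) + (T' : Module.End ℂ _) from rfl, LinearMap.add_apply, map_add]
  map_smul' c T := by
    ext f
    simp only [LinearMap.comp_apply, RingHom.id_apply, LinearMap.smul_apply]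
    rw [show ((c • T : CuspForm.heckeAlgebra N 2 ∅) : Module.End ℂ (CuspForm (Gamma0 N) 2))
      = c • (T : Module.End ℂ _) from rfl, LinearMap.smul_apply, map_zsmul]

theorem heckePairing_apply (T : CuspForm.heckeAlgebra N 2 ∅) (f : CuspForm (Gamma0 N) 2) :
    heckePairing N T f = qCoeff ((T : Module.End ℂ (CuspForm (Gamma0 N) 2)) f) 1 := rfl

/-- The `ℤ`-module `a_1 ∘ 𝕋`. -/
def heckeFunctionals : Submodule ℤ (CuspForm (Gamma0 N) 2 →ₗ[ℂ] ℂ) :=
  LinearMap.range (heckePairing N)

theorem heckeFunctionals_fg : (heckeFunctionals N).FG := by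
  have : Module.Finite ℤ (CuspForm.heckeAlgebra N 2 ∅) := S22.result N 2 ∅
  rw [heckeFunctionals, LinearMap.range_eq_map]
  exact Submodule.FG.map _ Module.Finite.fg_top

/-- `a_1 ∘ 𝕋` is stable under precomposition with elements of the Hecke algebra. -/
theorem comp_mem_heckeFunctionals {φ : CuspForm (Gamma0 N) 2 →ₗ[ℂ] ℂ}
    (hφ : φ ∈ heckeFunctionals N) {T₀ : Module.End ℂ (CuspForm (Gamma0 N) 2)}
    (hT₀ : T₀ ∈ CuspForm.heckeAlgebra N 2 ∅) : φ.comp T₀ ∈ heckeFunctionals N := by
  obtain ⟨T, rfl⟩ := hφ
  refine ⟨T * ⟨T₀, hT₀⟩, ?_⟩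
  ext f
  rfl

omit [NeZero N] in
theorem coeffFun_zero : coeffFun N 0 = 0 := by
  ext f
  exact Helper8.qCoeff_cusp_zero f

/-- Every coefficient functional lies in `a_1 ∘ 𝕋`. -/
theorem coeffFun_mem_heckeFunctionals (n : ℕ) : coeffFun N n ∈ heckeFunctionals N := by
  induction n using Nat.strong_induction_on with
  | _ n ih =>
    rcases Nat.lt_or_ge n 2 with hn | hn
    · interval_cases n
      · rw [coeffFun_zero]; exact Submodule.zero_mem _
      · refine ⟨1, ?_⟩
        ext f
        rfl
    · -- `n = m * p` with `p` the least prime factor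
      have hn1 : n ≠ 1 := by omega
      have hp : (n.minFac).Prime := Nat.minFac_prime hn1
      obtain ⟨m, hm⟩ : n.minFac ∣ n := Nat.minFac_dvd n
      set p := n.minFac with hpdef
      have hp2 : 2 ≤ p := hp.two_le
      have hm0 : 0 < m := by
        rcases Nat.eq_zero_or_pos m with h | h
        · rw [h, mul_zero] at hm; omega
        · exact h
      have hmn : m < n := by
        rw [hm]; nlinarith
      have hnm : n = m * p := by rw [hm, mul_comm]
      by_cases hpN : p ∣ N
      · -- `a_n = a_m ∘ U_p`
        have hU := CuspForm.heckeULin_mem_heckeAlgebra (k := 2) (S := ∅) hp hpN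
          (Set.notMem_empty p)
        have := comp_mem_heckeFunctionals N (ih m hmn) hU
        convert this using 1
        ext f
        rw [LinearMap.comp_apply, coeffFun_apply, coeffFun_apply, Helper8.qCoeff_heckeULin hp hpN,
          ModularForm.coeffHeckeU_apply, hnm]
      · -- `a_n = a_m ∘ T_p - [p ∣ m] p a_{m/p}`
        have hT := CuspForm.heckeTLin_mem_heckeAlgebra (k := 2) (S := ∅) hp hpN
          (Set.notMem_empty p)
        have h1 := comp_mem_heckeFunctionals N (ih m hmn) hT
        by_cases hpm : p ∣ m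
        · have hmp : m / p < n := lt_of_le_of_lt (Nat.div_le_self m p) hmn
          have h2 := Submodule.smul_mem (heckeFunctionals N) (p : ℤ) (ih (m / p) hmp)
          have h3 := Submodule.sub_mem _ h1 h2
          convert h3 using 1
          ext f
          rw [LinearMap.sub_apply, LinearMap.comp_apply, LinearMap.smul_apply, coeffFun_apply,
            coeffFun_apply, coeffFun_apply, Helper8.qCoeff_heckeTLin hp hpN,
            ModularForm.coeffHeckeT_apply, if_pos hpm, hnm]
          simp
        · convert h1 using 1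
          ext f
          rw [LinearMap.comp_apply, coeffFun_apply, coeffFun_apply,
            Helper8.qCoeff_heckeTLin hp hpN, ModularForm.coeffHeckeT_apply, if_neg hpm, hnm,
            add_zero]

/-- The `ℤ`-span of the coefficient functionals is finitely generated. -/
theorem span_coeffFun_fg :
    (Submodule.span ℤ (Set.range (coeffFun N)) :
      Submodule ℤ (CuspForm (Gamma0 N) 2 →ₗ[ℂ] ℂ)).FG := by
  have hle : Submodule.span ℤ (Set.range (coeffFun N)) ≤ heckeFunctionals N := by
    rw [Submodule.span_le]
    rintro _ ⟨n, rfl⟩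
    exact coeffFun_mem_heckeFunctionals N n
  have h1 : IsNoetherian ℤ ↥(heckeFunctionals N) :=
    isNoetherian_of_fg_of_noetherian _ (heckeFunctionals_fg N)
  have h2 : IsNoetherian ℤ ↥(Submodule.span ℤ (Set.range (coeffFun N))) :=
    isNoetherian_of_le hle
  exact (Submodule.fg_top _).mp (IsNoetherian.noetherian ⊤)

/-- S23 follows from the stability of the `q`-expansions of `S₂(Γ₀(N))` under all field
automorphisms of `ℂ` (acting on the coefficients). -/
theorem hasIntegralStructure_of_stable [FiniteDimensional ℂ (CuspForm (Gamma0 N) 2)]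
    (hstab : ∀ (τ : ℂ ≃+* ℂ) (f : CuspForm (Gamma0 N) 2),
      ∃ g : CuspForm (Gamma0 N) 2, ∀ n, qCoeff g n = τ (qCoeff f n)) :
    CuspForm.HasIntegralStructure N 2 := by
  have h := span_int_coeff_eq_top (coeffFun N)
    (fun f hf => Helper8.eq_zero_of_qCoeff_eq_zero f hf) hstab (span_coeffFun_fg N)
  unfold CuspForm.HasIntegralStructure
  rw [Helper8.intLattice_eq]
  exact h

end

end Fermat.Agent.ProgramR.Descent
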