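/-
Program R / Descent (D4b, helper1): the primitive element hypothesis `PrimitiveJN N` of
`Descent/TauF.lean` holds: `F_N = ℂ(j)(j_N)`, so `tauF` is unconditional.
-/
import Fermat.Agent.ProgramR.Descent.TauF
import Fermat.Agent.ProgramR.Descent.AutFF

set_option autoImplicit false

noncomputable section

namespace Fermat.Agent.ProgramR.Descent

open UpperHalfPlane Polynomial Module CongruenceSubgroup IntermediateField ModularCurve
open Fermat.Agent.ProgramR.Alg Fermat.Agent.ProgramR.BarField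
open scoped Manifold MatrixGroups

attribute [local instance] Genus.cosetFintype

variable (N : ℕ) [NeZero N]

/-- **`F_N = ℂ(j)(j_N)`** in the `RatFunc ℂ` / `FF` model of the function field. -/
theorem primitiveJN : PrimitiveJN N := by
  rw [PrimitiveJN, jdWH0_self]
  apply (Field.primitive_element_iff_minpoly_natDegree_eq (RatFunc ℂ) _).2
  have hint : IsIntegral ℂ[X] (jNWH0 N) := Algebra.IsIntegral.isIntegral _
  apply le_antisymm (minpoly.natDegree_le _)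
  rw [minpoly.isIntegrallyClosed_eq_field_fractions (RatFunc ℂ) (FF ℂ (WH0 (Gamma0 N))) hint,
    (minpoly.monic hint).natDegree_map, finrank_FF, WH0.finrank_Gamma0]
  exact WH0.le_natDegree_minpoly_jN N

/-- The unconditional automorphism of `F_N` attached to `τ ∈ Aut(ℂ)`. -/
def tauFN (τ : ℂ ≃+* ℂ) : FF ℂ (WH0 (Gamma0 N)) ≃+* FF ℂ (WH0 (Gamma0 N)) :=
  tauF N (primitiveJN N) τ

theorem qExpF_tauFN (τ : ℂ ≃+* ℂ) (h : FF ℂ (WH0 (Gamma0 N))) :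
    qExpF N (tauFN N τ h) = coeffMap (τ : ℂ →+* ℂ) (qExpF N h) :=
  qExpF_tauF N (primitiveJN N) τ h

theorem tauFN_mem_iff (τ : ℂ ≃+* ℂ) (W : Submodule ℂ (FF ℂ (WH0 (Gamma0 N))))
    (hW : ∀ h, h ∈ W ↔ FinCond ℂ (FF ℂ (WH0 (Gamma0 N))) (WH0 (Gamma0 N)) h ∧
      InfCond ℂ (FF ℂ (WH0 (Gamma0 N))) (Binf ℂ (WH0 (Gamma0 N))) h)
    (h : FF ℂ (WH0 (Gamma0 N))) : tauFN N τ h ∈ W ↔ h ∈ W :=
  tauF_mem_iff N (primitiveJN N) τ W hW h

theorem finCond_tauFN_iff (τ : ℂ ≃+* ℂ) (h : FF ℂ (WH0 (Gamma0 N))) :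
    FinCond ℂ (FF ℂ (WH0 (Gamma0 N))) (WH0 (Gamma0 N)) (tauFN N τ h) ↔
      FinCond ℂ (FF ℂ (WH0 (Gamma0 N))) (WH0 (Gamma0 N)) h :=
  finCond_tauF_iff N (primitiveJN N) τ h

theorem infCond_tauFN_iff (τ : ℂ ≃+* ℂ) (h : FF ℂ (WH0 (Gamma0 N))) :
    InfCond ℂ (FF ℂ (WH0 (Gamma0 N))) (Binf ℂ (WH0 (Gamma0 N))) (tauFN N τ h) ↔
      InfCond ℂ (FF ℂ (WH0 (Gamma0 N))) (Binf ℂ (WH0 (Gamma0 N))) h :=
  infCond_tauF_iff N (primitiveJN N) τ h

end Fermat.Agent.ProgramR.Descent
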