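/-
Program R / S23, package D4c (helper7): the `q`-expansion form of R7.
For `f ∈ S₂(Γ₀(N))` the `q`-expansion of `f` at `i∞` is the product of the expansion of
`phi f ∈ F_N` and of the fixed series of `K = E₄²E₆/Δ`, which has rational coefficients.
-/
import Fermat.Agent.ProgramR.Forms.R7
import Fermat.Agent.ProgramR.BarField.ToFunField
import Fermat.Prelude.Def_ModularCurve_X0ModL
import Fermat.Prelude.Def_FLTPrelim_Modularity

set_option autoImplicit false
set_option linter.unusedSectionVars false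

noncomputable section

namespace Fermat.Agent.ProgramR.Descent

open Complex Filter Function Polynomial IsDedekindDomain Module
open UpperHalfPlane hiding I
open ModularForm EisensteinSeries MatrixGroups CongruenceSubgroup ModularCurve
open Fermat.Agent.ProgramR.LevelOne Fermat.Agent.ProgramR.CuspLocal Fermat.Agent.ProgramR.QExp
  Fermat.Agent.ProgramR.Alg Fermat.Agent.ProgramR.Forms Fermat.Agent.ProgramR.BarField
open scoped Real Topology Manifold

local notation "Δ" => ModularForm.discriminant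

variable (N : ℕ) [NeZero N] [IsDedekindDomain (BN N)] [Module.Finite ℂ[X] (BN N)]

/-- the `q`-expansion at `i∞` on the fraction field `F_N = FF ℂ B_N`. -/
def qExpFN : FN N →+* LaurentSeries ℂ :=
  IsFractionRing.lift (A := BN N) (K := FN N) (qExpWH0_injective N)

lemma qExpFN_algebraMap (a : BN N) :
    qExpFN N (algebraMap (BN N) (FN N) a) = laurentExp 1 (a : ℍ → ℂ) :=
  IsFractionRing.lift_algebraMap _ a

lemma qExpFN_injective : Function.Injective (qExpFN N) := (qExpFN N).injective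

lemma qExpFN_div (a b : BN N) :
    qExpFN N (algebraMap (BN N) (FN N) a / algebraMap (BN N) (FN N) b) =
      laurentExp 1 (a : ℍ → ℂ) / laurentExp 1 (b : ℍ → ℂ) := by
  rw [map_div₀, qExpFN_algebraMap, qExpFN_algebraMap]

/-- cusp forms of level `Γ₀(N)` are holomorphic, `1`-periodic and bounded at `i∞`. -/
lemma isHolPerBdd_cuspForm (f : CuspForm (Gamma0 N) 2) : IsHolPerBdd 1 (f : ℍ → ℂ) where
  holo := f.holo'
  periodic := by
    apply periodic_comp_ofComplex_of_vadd
    intro τ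
    have h := SlashInvariantForm.slash_action_eqn_SL'' f (T_mem_Gamma0 N) τ
    rw [modular_T_smul] at h
    rw [h]
    have : denom (ModularGroup.T : SL(2, ℤ)) τ = 1 := by
      have := Forms.denom_T_zpow 1 τ
      simpa using this
    rw [this]
    simp
  bdd := by
    have h := Forms.cuspForm_slash_isZeroAtImInfty f 1
    rw [SlashAction.slash_one] at h
    exact h.isBoundedAtImInfty

lemma isMeroAtInfty_one_kHol : IsMeroAtInfty 1 1 (kHol : ℍ → ℂ) := by
  have h := Forms.isMeroAtInfty_kHol 1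
  simpa using h

lemma exists_isMeroAtInfty_one (a : BN N) : ∃ m, IsMeroAtInfty 1 m (a : ℍ → ℂ) :=
  mem_merRing_of_mem_WH0 N a.2

lemma laurentExp_ne_zero_of_ne_zero {a : BN N} (ha : a ≠ 0) : laurentExp 1 (a : ℍ → ℂ) ≠ 0 := by
  intro h0
  apply ha
  apply qExpWH0_injective N
  rw [qExpWH0_apply, h0, map_zero]

/-- **(D4c)** the `q`-expansion of a cusp form is the expansion of `phi f` times that of `K`. -/
theorem ofPowerSeries_qExpansion_eq (f : CuspForm (Gamma0 N) 2) :
    HahnSeries.ofPowerSeries ℤ ℂ (qExpansion 1 (f : ℍ → ℂ)) =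
      qExpFN N (phi N f) * laurentExp 1 (kHol : ℍ → ℂ) := by
  have hf := isHolPerBdd_cuspForm N f
  obtain ⟨m1, hm1⟩ := exists_isMeroAtInfty_one N (numB f)
  obtain ⟨m2, hm2⟩ := exists_isMeroAtInfty_one N (dB N)
  have hK := isMeroAtInfty_one_kHol
  have hfun : ((numB f : BN N) : ℍ → ℂ) * (kHol : ℍ → ℂ) =
      (f : ℍ → ℂ) * ((dB N : BN N) : ℍ → ℂ) := by
    funext z
    have h1 := congrArg (fun G : Hol => (G : ℍ → ℂ) z) (numB_mul_kHol f)
    have h2 := congrArg (fun G : Hol => (G : ℍ → ℂ) z) (toHol_dB N)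
    simp only [Subring.coe_mul, Pi.mul_apply, WH0.toHol_apply] at h1 h2
    rw [Pi.mul_apply, Pi.mul_apply, h1, h2]
    simp only [cuspHol]
    ring
  have h3 := congrArg (laurentExp 1) hfun
  rw [laurentExp_mul one_pos hm1 hK,
    laurentExp_mul one_pos (IsMeroAtInfty.of_isHolPerBdd hf) hm2,
    laurentExp_of_isHolPerBdd one_pos hf] at h3
  rw [phi_apply, qExpFN_div, div_mul_eq_mul_div, h3,
    mul_div_assoc, div_self (laurentExp_ne_zero_of_ne_zero N (dB_ne_zero N)), mul_one]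

/-! ### Rationality of the expansion of `K` -/

/-- the subfield of Laurent series with rational coefficients. -/
def ratSeries : Subfield (LaurentSeries ℂ) := (coeffMap (algebraMap ℚ ℂ)).fieldRange

lemma ofPowerSeries_map_mem_ratSeries (P : PowerSeries ℚ) :
    HahnSeries.ofPowerSeries ℤ ℂ (P.map (algebraMap ℚ ℂ)) ∈ ratSeries :=
  ⟨HahnSeries.ofPowerSeries ℤ ℚ P, coeffMap_ofPowerSeries _ P⟩

lemma exists_rat_qExpansion_E {k : ℕ} (hk : 3 ≤ k) (hk2 : Even k) :
    ∃ P : PowerSeries ℚ, P.map (algebraMap ℚ ℂ) = qExpansion 1 (E hk : ℍ → ℂ) := by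
  refine ⟨PowerSeries.mk fun m => if m = 0 then 1 else
    -(2 * k / _root_.bernoulli k : ℚ) * (ArithmeticFunction.sigma (k - 1) m), ?_⟩
  ext m
  rw [EisensteinSeries.E_qExpansion_coeff hk hk2 m, PowerSeries.coeff_map, PowerSeries.coeff_mk]
  split_ifs with hm
  · simp
  · simp

lemma ofPowerSeries_qExpansion_E_mem {k : ℕ} (hk : 3 ≤ k) (hk2 : Even k) :
    HahnSeries.ofPowerSeries ℤ ℂ (qExpansion 1 (E hk : ℍ → ℂ)) ∈ ratSeries := by
  obtain ⟨P, hP⟩ := exists_rat_qExpansion_E hk hk2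
  rw [← hP]
  exact ofPowerSeries_map_mem_ratSeries P

lemma ofPowerSeries_qExpansion_discriminant_mem :
    HahnSeries.ofPowerSeries ℤ ℂ (qExpansion 1 (fun τ : ℍ => Δ τ)) ∈ ratSeries := by
  rw [qExpansion_discriminant]
  have : (PowerSeries.X * etaProdC ^ 24 : PowerSeries ℂ) =
      ((PowerSeries.X * (ModularCurve.etaProd.map (Int.castRingHom ℚ)) ^ 24 : PowerSeries ℚ)).map
        (algebraMap ℚ ℂ) := by
    rw [map_mul, map_pow, PowerSeries.map_X, etaProdC]
    congr 2
  rw [this]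
  exact ofPowerSeries_map_mem_ratSeries _

/-- the expansion of `K = E₄² E₆ / Δ` has rational coefficients. -/
theorem laurentExp_kHol_mem_ratSeries : laurentExp 1 (kHol : ℍ → ℂ) ∈ ratSeries := by
  have hΔ : IsHolPerBdd 1 (fun τ : ℍ => Δ τ) := by
    have := isHolPerBdd_of_modularForm (CuspForm.discriminant : CuspForm 𝒮ℒ 12)
    exact this
  have hE4 : IsHolPerBdd 1 (E₄ : ℍ → ℂ) := isHolPerBdd_of_modularForm E₄
  have hE6 : IsHolPerBdd 1 (E₆ : ℍ → ℂ) := isHolPerBdd_of_modularForm E₆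
  have hfun : (kHol : ℍ → ℂ) * (fun τ : ℍ => Δ τ) = (E₄ : ℍ → ℂ) ^ 2 * (E₆ : ℍ → ℂ) := by
    funext z
    simp only [Pi.mul_apply, Pi.pow_apply, kHol_apply]
    field_simp [discriminant_ne_zero z]
  have h1 := congrArg (laurentExp 1) hfun
  rw [laurentExp_mul one_pos isMeroAtInfty_one_kHol (IsMeroAtInfty.of_isHolPerBdd hΔ),
    laurentExp_of_isHolPerBdd one_pos hΔ,
    laurentExp_of_isHolPerBdd one_pos ((hE4.pow 2).mul hE6),
    qExpansion_mul ((hE4.pow 2).analyticAt one_pos) (hE6.analyticAt one_pos),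
    qExpansion_pow one_pos hE4, map_mul, map_pow] at h1
  have hΔ0 : HahnSeries.ofPowerSeries ℤ ℂ (qExpansion 1 (fun τ : ℍ => Δ τ)) ≠ 0 := by
    rw [qExpansion_discriminant]
    intro h0
    have h2 := (HahnSeries.ofPowerSeries_injective (Γ := ℤ) (R := ℂ)) (h0.trans (map_zero _).symm)
    have h3 := congrArg (PowerSeries.coeff 1) h2
    rw [PowerSeries.coeff_succ_X_mul, map_zero, PowerSeries.coeff_zero_eq_constantCoeff_apply,
      map_pow] at h3
    have h4 : PowerSeries.constantCoeff etaProdC = 1 := by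
      rw [etaProdC, ← PowerSeries.coeff_zero_eq_constantCoeff_apply, PowerSeries.coeff_map,
        PowerSeries.coeff_zero_eq_constantCoeff_apply, ModularCurve.constantCoeff_etaProd]
      simp
    rw [h4, one_pow] at h3
    exact one_ne_zero h3
  have h5 : laurentExp 1 (kHol : ℍ → ℂ) =
      HahnSeries.ofPowerSeries ℤ ℂ (qExpansion 1 (E₄ : ℍ → ℂ)) ^ 2 *
        HahnSeries.ofPowerSeries ℤ ℂ (qExpansion 1 (E₆ : ℍ → ℂ)) /
          HahnSeries.ofPowerSeries ℤ ℂ (qExpansion 1 (fun τ : ℍ => Δ τ)) := by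
    rw [eq_div_iff hΔ0, h1]
  rw [h5]
  exact ratSeries.div_mem
    (ratSeries.mul_mem (ratSeries.pow_mem
      (ofPowerSeries_qExpansion_E_mem (by norm_num : 3 ≤ 4) (by decide)) 2)
      (ofPowerSeries_qExpansion_E_mem (by norm_num : 3 ≤ 6) (by decide)))
    ofPowerSeries_qExpansion_discriminant_mem

/-- rational Laurent series are fixed by every field automorphism of `ℂ` acting on coefficients. -/
lemma coeffMap_eq_self_of_mem_ratSeries (τ : ℂ ≃+* ℂ) {x : LaurentSeries ℂ} (hx : x ∈ ratSeries) :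
    coeffMap (τ : ℂ →+* ℂ) x = x := by
  obtain ⟨y, rfl⟩ := hx
  rw [coeffMap_coeffMap]
  exact coeffMap_congr (Subsingleton.elim _ _) y

/-! ### Assembly: stability of the `q`-expansions of `S₂(Γ₀(N))` under `Aut(ℂ)` -/

lemma qCoeff_eq_coeff (f : CuspForm (Gamma0 N) 2) (n : ℕ) :
    ModularFormClass.qCoeff (f : ℍ → ℂ) n =
      (HahnSeries.ofPowerSeries ℤ ℂ (qExpansion 1 (f : ℍ → ℂ))).coeff (n : ℤ) := by
  rw [HahnSeries.ofPowerSeries_apply_coeff]
  rfl

/-- **(D4, assembly)** if the automorphism `τ` of `ℂ` lifts to a self-map `τF` of `F_N` which acts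
on `q`-expansions coefficientwise and preserves the space `W` of holomorphic differentials, then
the `q`-expansions of `S₂(Γ₀(N))` are stable under `τ`. -/
theorem exists_cuspForm_qCoeff_eq (hD : DFin N) (hD' : DFin' N) (hI : DInf N) (hI' : DInf' N)
    (τ : ℂ ≃+* ℂ) (τF : FN N → FN N)
    (hq : ∀ h, qExpFN N (τF h) = coeffMap (τ : ℂ →+* ℂ) (qExpFN N h))
    (hW : ∀ h, FinCond ℂ (FN N) (BN N) h → InfCond ℂ (FN N) (Binf ℂ (BN N)) h →
      FinCond ℂ (FN N) (BN N) (τF h) ∧ InfCond ℂ (FN N) (Binf ℂ (BN N)) (τF h))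
    (f : CuspForm (Gamma0 N) 2) :
    ∃ g : CuspForm (Gamma0 N) 2, ∀ n,
      ModularFormClass.qCoeff (g : ℍ → ℂ) n = τ (ModularFormClass.qCoeff (f : ℍ → ℂ) n) := by
  obtain ⟨h1, h2⟩ := hW _ (finCond_phi N hD f) (infCond_phi N hI f)
  obtain ⟨g, hg⟩ := exists_phi_eq N hD' hI' h1 h2
  refine ⟨g, fun n => ?_⟩
  rw [qCoeff_eq_coeff, qCoeff_eq_coeff, ofPowerSeries_qExpansion_eq N g, hg, hq,
    ← coeffMap_eq_self_of_mem_ratSeries τ laurentExp_kHol_mem_ratSeries, ← map_mul,
    ← ofPowerSeries_qExpansion_eq N f, coeffMap_coeff]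
  rfl

end Fermat.Agent.ProgramR.Descent
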