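/-
Program R / S23 (helper7): final glue.  The `q`-expansions of `S₂(Γ₀(N))` are stable under every
field automorphism of `ℂ`; hence (helper5's descent) `S₂(Γ₀(N))` has an integral structure.
-/
import Fermat.Agent.ProgramR.Descent.QExpR7
import Fermat.Agent.ProgramR.Descent.TauF
import Fermat.Agent.ProgramR.Descent.GenJN
import Fermat.Agent.ProgramR.Descent.AutFF
import Fermat.Agent.ProgramR.Descent.HeckeFG
import Fermat.Agent.ProgramR.S20.Final
import Fermat.Agent.ProgramR.ES.Assembly

set_option autoImplicit false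
set_option linter.unusedSectionVars false

noncomputable section

namespace Fermat.Agent.ProgramR.Descent

open Polynomial Module CongruenceSubgroup ModularCurve UpperHalfPlane IntermediateField
open Fermat.Agent.ProgramR.Alg Fermat.Agent.ProgramR.BarField Fermat.Agent.ProgramR.QExp
  Fermat.Agent.ProgramR.Forms
open scoped MatrixGroups

attribute [local instance] Genus.cosetFintype

variable (N : ℕ) [NeZero N]

/-- `F_N = ℂ(j)(j_N)` in helper2's shape (over `RatFunc ℂ`, inside `FF ℂ B_N`). -/
theorem primitiveJN_aux : PrimitiveJN N := by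
  rw [PrimitiveJN, jdWH0_self]
  rw [Field.primitive_element_iff_minpoly_natDegree_eq]
  have hint : IsIntegral ℂ[X] (jNWH0 N) := Algebra.IsIntegral.isIntegral _
  apply le_antisymm (minpoly.natDegree_le _)
  rw [minpoly.isIntegrallyClosed_eq_field_fractions (RatFunc ℂ) (FF ℂ (WH0 (Gamma0 N))) hint,
    (minpoly.monic hint).natDegree_map, finrank_FF, WH0.finrank_Gamma0]
  exact WH0.le_natDegree_minpoly_jN N

lemma qExpF_eq_qExpFN (h : FN N) : qExpF N h = qExpFN N h := rfl

/-- **hstab**: the `q`-expansions of `S₂(Γ₀(N))` are stable under `Aut(ℂ)`. -/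
theorem qCoeff_stable (τ : ℂ ≃+* ℂ) (f : CuspForm (Gamma0 N) 2) :
    ∃ g : CuspForm (Gamma0 N) 2, ∀ n,
      ModularFormClass.qCoeff (g : ℍ → ℂ) n = τ (ModularFormClass.qCoeff (f : ℍ → ℂ) n) :=
  exists_cuspForm_qCoeff_eq N (S20.dFin_Gamma0 N) (S20.dFin'_Gamma0 N) (S20.dInf_Gamma0 N)
    (S20.dInf'_Gamma0 N) τ (tauF N (primitiveJN_aux N) τ)
    (fun h => qExpF_tauF N (primitiveJN_aux N) τ h)
    (fun h h1 h2 => ⟨(finCond_tauF_iff N (primitiveJN_aux N) τ h).mpr h1,
      (infCond_tauF_iff N (primitiveJN_aux N) τ h).mpr h2⟩) f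

/-- **S23.** -/
theorem hasIntegralStructure_two : CuspForm.HasIntegralStructure N 2 := by
  have := ES.finiteDimensional_cuspForm N
  exact hasIntegralStructure_of_stable N (qCoeff_stable N)

end Fermat.Agent.ProgramR.Descent
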